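import Fermat.Agent.HairyBall.Schauder
import Mathlib.Analysis.Convex.Quasiconvex
import Mathlib.Analysis.Normed.Module.Convex

/-!
# The fixed point theorem of Kakutani and the equilibria of concave games

Averaging chosen values over small balls gives continuous maps whose fixed points, by the theorem
of Schauder, accumulate at a fixed point of the correspondence.  Applied to the best replies it
gives the equilibrium of a game with quasi-concave payoffs.
-/

set_option autoImplicit false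

noncomputable section

open Set Metric Filter Topology

namespace FA.Kakutani

variable {V : Type*} [NormedAddCommGroup V] [NormedSpace ℝ V]

/-- An almost fixed point of a correspondence. -/
theorem exists_almost {K : Set V} (hc : IsCompact K) (hconv : Convex ℝ K) (hne : K.Nonempty)
    {F : V → Set V} (hnonempty : ∀ x ∈ K, (F x).Nonempty) (hmaps : ∀ x ∈ K, F x ⊆ K) {ε : ℝ}
    (hε : 0 < ε) :
    ∃ x ∈ K, ∀ C : Set V, Convex ℝ C → (∀ z ∈ K, dist x z < ε → F z ⊆ C) → x ∈ C := by
  obtain ⟨t, hts, htf, hcover⟩ := hc.finite_cover_balls hε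
  set T := htf.toFinset
  choose! y hy using hnonempty
  set w : V → V → ℝ := fun i x => max 0 (ε - dist x i)
  set g : V → V := fun x => T.centerMass (fun i => w i x) y
  have hw : ∀ i, Continuous (w i) := fun i =>
    continuous_const.max (continuous_const.sub (continuous_id.dist continuous_const))
  have hpos : ∀ x ∈ K, 0 < ∑ i ∈ T, w i x := fun x hx => by
    obtain ⟨i, hi, hxi⟩ := mem_iUnion₂.1 (hcover hx)
    exact Finset.sum_pos' (fun j _ => le_max_left _ _)
      ⟨i, htf.mem_toFinset.2 hi, lt_max_of_lt_right (sub_pos.2 hxi)⟩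
  have hg : ContinuousOn g K := by
    simp only [g, Finset.centerMass]
    exact ((continuous_finsetSum _ fun i _ => hw i).continuousOn.inv₀
      fun x hx => (hpos x hx).ne').smul
      (continuous_finsetSum _ fun i _ => (hw i).smul continuous_const).continuousOn
  have hmem : ∀ x ∈ K, ∀ C : Set V, Convex ℝ C → (∀ i ∈ T, dist x i < ε → y i ∈ C) → g x ∈ C := by
    intro x hx C hC hyC
    simp only [g]
    rw [← Finset.centerMass_filter_ne_zero]
    refine hC.centerMass_mem (fun i _ => le_max_left _ _) ?_ fun i hi => ?_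
    · rw [Finset.sum_filter_ne_zero]
      exact hpos x hx
    · obtain ⟨hiT, hi0⟩ := Finset.mem_filter.1 hi
      refine hyC i hiT (lt_of_not_ge fun hle => hi0 ?_)
      exact max_eq_left (sub_nonpos.2 hle)
  have hself : MapsTo g K K := fun x hx => hmem x hx K hconv fun i hi _ =>
    hmaps i (hts (htf.mem_toFinset.1 hi)) (hy i (hts (htf.mem_toFinset.1 hi)))
  obtain ⟨x, hx, hfix⟩ := FA.HairyBall.exists_fixed hc hconv hne hg hself
  refine ⟨x, hx, fun C hC hsub => ?_⟩
  rw [← hfix]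
  exact hmem x hx C hC fun i hi hd =>
    hsub i (hts (htf.mem_toFinset.1 hi)) hd (hy i (hts (htf.mem_toFinset.1 hi)))

/-- **The fixed point theorem of Kakutani.** -/
theorem exists_fixed {K : Set V} (hc : IsCompact K) (hconv : Convex ℝ K) (hne : K.Nonempty)
    {F : V → Set V} (hnonempty : ∀ x ∈ K, (F x).Nonempty) (hmaps : ∀ x ∈ K, F x ⊆ K)
    (hconvex : ∀ x ∈ K, Convex ℝ (F x)) (hgraph : IsClosed {p : V × V | p.1 ∈ K ∧ p.2 ∈ F p.1}) :
    ∃ x ∈ K, x ∈ F x := by
  have hex : ∀ n : ℕ, ∃ x ∈ K, ∀ C : Set V, Convex ℝ C →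
      (∀ z ∈ K, dist x z < 1 / ((n : ℝ) + 1) → F z ⊆ C) → x ∈ C := fun n =>
    exists_almost hc hconv hne hnonempty hmaps (by positivity)
  choose x hx hxC using hex
  obtain ⟨a, ha, φ, hφ, hlim⟩ := hc.tendsto_subseq hx
  refine ⟨a, ha, ?_⟩
  have hclosed : IsClosed (F a) := by
    have e : F a = (fun y => (a, y)) ⁻¹' {p : V × V | p.1 ∈ K ∧ p.2 ∈ F p.1} := by
      ext y
      simp [ha]
    rw [e]
    exact hgraph.preimage (by fun_prop)
  refine hclosed.closure_subset (Metric.mem_closure_iff.2 fun η hη => ?_)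
  set U := thickening (η / 2) (F a)
  have hbad : IsCompact (Prod.fst '' ({p : V × V | p.1 ∈ K ∧ p.2 ∈ F p.1} ∩ (univ ×ˢ Uᶜ))) := by
    refine (IsCompact.of_isClosed_subset (hc.prod hc) (hgraph.inter
      (isClosed_univ.prod isOpen_thickening.isClosed_compl)) ?_).image continuous_fst
    rintro p ⟨⟨h1, h2⟩, -⟩
    exact ⟨h1, hmaps _ h1 h2⟩
  have hnot : a ∈ (Prod.fst '' ({p : V × V | p.1 ∈ K ∧ p.2 ∈ F p.1} ∩ (univ ×ˢ Uᶜ)))ᶜ := by
    rintro ⟨⟨b, y⟩, ⟨⟨-, hy⟩, -, hyU⟩, rfl⟩
    exact hyU (self_subset_thickening (half_pos hη) _ hy)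
  obtain ⟨r, hr, hball⟩ := Metric.isOpen_iff.1 hbad.isClosed.isOpen_compl a hnot
  have hev : ∀ᶠ n in atTop, dist (x (φ n)) a < r / 2 ∧ dist (x (φ n)) a < η / 2 ∧
      1 / ((φ n : ℝ) + 1) < r / 2 := by
    refine (hlim.eventually (ball_mem_nhds a (half_pos hr))).and
      ((hlim.eventually (ball_mem_nhds a (half_pos hη))).and ?_)
    exact (tendsto_one_div_add_atTop_nhds_zero_nat.comp hφ.tendsto_atTop).eventually
      (gt_mem_nhds (half_pos hr))
  obtain ⟨n, hn1, hn2, hn3⟩ := hev.exists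
  have hU : x (φ n) ∈ U := hxC (φ n) U ((hconvex a ha).thickening _) fun z hz hd y hy => by
    by_contra hyU
    refine hball (mem_ball.2 ?_) ⟨(z, y), ⟨⟨hz, hy⟩, trivial, hyU⟩, rfl⟩
    linarith [dist_triangle z (x (φ n)) a, dist_comm z (x (φ n))]
  obtain ⟨y, hy, hyd⟩ := mem_thickening_iff.1 hU
  exact ⟨y, hy, by linarith [dist_triangle a (x (φ n)) y, dist_comm a (x (φ n))]⟩

/-- **Equilibria of games with quasi-concave payoffs.** -/
theorem exists_equilibrium {ι : Type*} [Fintype ι] [DecidableEq ι] {W : ι → Type*}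
    [∀ i, NormedAddCommGroup (W i)] [∀ i, NormedSpace ℝ (W i)] {K : ∀ i, Set (W i)}
    (hc : ∀ i, IsCompact (K i)) (hconv : ∀ i, Convex ℝ (K i)) (hne : ∀ i, (K i).Nonempty)
    (u : ι → (∀ i, W i) → ℝ) (hu : ∀ i, ContinuousOn (u i) (univ.pi K))
    (hq : ∀ i, ∀ x ∈ univ.pi K, QuasiconcaveOn ℝ (K i) fun y => u i (Function.update x i y)) :
    ∃ x ∈ univ.pi K, ∀ i, ∀ y ∈ K i, u i (Function.update x i y) ≤ u i x := by
  set S := univ.pi K
  have hupd : ∀ x ∈ S, ∀ i, ∀ y ∈ K i, Function.update x i y ∈ S := fun x hx i y hy j _ => by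
    rcases eq_or_ne j i with rfl | h
    · rwa [Function.update_self]
    · rw [Function.update_of_ne h]
      exact hx j trivial
  set F : (∀ i, W i) → Set (∀ i, W i) := fun x =>
    {y | y ∈ S ∧ ∀ i, ∀ z ∈ K i, u i (Function.update x i z) ≤ u i (Function.update x i (y i))}
  obtain ⟨x, hx, -, hfix⟩ := exists_fixed (K := S) (F := F) (isCompact_univ_pi hc)
    (convex_pi fun i _ => hconv i) (univ_pi_nonempty_iff.2 hne) (fun x hx => by
      have h : ∀ i, ∃ y ∈ K i, IsMaxOn (fun z => u i (Function.update x i z)) (K i) y := fun i =>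
        (hc i).exists_isMaxOn (hne i) ((hu i).comp (by fun_prop) fun z hz => hupd x hx i z hz)
      choose y hy hmax using h
      exact ⟨y, fun i _ => hy i, fun i z hz => hmax i hz⟩)
    (fun x _ y hy => hy.1)
    (fun x hx y hy y' hy' a b ha hb hab => ⟨(convex_pi fun i _ => hconv i) hy.1 hy'.1 ha hb hab,
      fun i z hz => le_trans (le_min (hy.2 i z hz) (hy'.2 i z hz))
        ((hq i x hx (min (u i (Function.update x i (y i))) (u i (Function.update x i (y' i)))))
          ⟨hy.1 i trivial, min_le_left _ _⟩ ⟨hy'.1 i trivial, min_le_right _ _⟩ ha hb hab).2⟩)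
    (by
      have e : {p : (∀ i, W i) × (∀ i, W i) | p.1 ∈ S ∧ p.2 ∈ F p.1} =
          (S ×ˢ S) ∩ ⋂ i, ⋂ z ∈ K i, {p ∈ S ×ˢ S |
            u i (Function.update p.1 i z) ≤ u i (Function.update p.1 i (p.2 i))} := by
        ext p
        simp only [mem_inter_iff, mem_iInter, mem_prod, F]
        exact ⟨fun ⟨h1, h2, h3⟩ => ⟨⟨h1, h2⟩, fun i z hz => ⟨⟨h1, h2⟩, h3 i z hz⟩⟩,
          fun ⟨⟨h1, h2⟩, h⟩ => ⟨h1, h2, fun i z hz => (h i z hz).2⟩⟩
      have hSS : IsClosed (S ×ˢ S) :=
        ((isCompact_univ_pi hc).prod (isCompact_univ_pi hc)).isClosed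
      rw [e]
      refine hSS.inter (isClosed_iInter fun i => isClosed_biInter fun z hz => ?_)
      exact hSS.isClosed_le
        ((hu i).comp (by fun_prop) fun p hp => hupd _ hp.1 i z hz)
        ((hu i).comp (by fun_prop) fun p hp => hupd _ hp.1 i _ (hp.2 i trivial)))
  exact ⟨x, hx, fun i y hy => (hfix i y hy).trans_eq (by rw [Function.update_eq_self])⟩

end FA.Kakutani
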