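import Fermat.Agent.HairyBall.Schauder
import Mathlib.Analysis.Calculus.Deriv.Pow
import Mathlib.Analysis.SpecialFunctions.Sqrt
import Mathlib.MeasureTheory.Integral.IntervalIntegral.FundThmCalculus
import Mathlib.Topology.ContinuousMap.Bounded.ArzelaAscoli

/-!
# The existence theorem of Peano

The paths with a given origin and Lipschitz constant form a compact convex set, on which the
integral operator of a continuous field is continuous; Schauder gives a fixed point.
-/

set_option autoImplicit false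

noncomputable section

open Set Metric Filter Topology MeasureTheory intervalIntegral
open scoped BoundedContinuousFunction NNReal

namespace FA.Kakutani

variable {E : Type*} [NormedAddCommGroup E] [NormedSpace ℝ E] [FiniteDimensional ℝ E]

/-- **The existence theorem of Peano.** -/
theorem exists_solution {f : ℝ → E → E} {t₀ T R M : ℝ} {x₀ : E} (hT : t₀ ≤ T) (hR : 0 ≤ R)
    (hf : ContinuousOn (Function.uncurry f) (Icc t₀ T ×ˢ closedBall x₀ R))
    (hM : ∀ t ∈ Icc t₀ T, ∀ y ∈ closedBall x₀ R, ‖f t y‖ ≤ M) (hMR : M * (T - t₀) ≤ R) :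
    ∃ x : ℝ → E, x t₀ = x₀ ∧ (∀ t ∈ Icc t₀ T, x t ∈ closedBall x₀ R) ∧
      ∀ t ∈ Icc t₀ T, HasDerivWithinAt x (f t (x t)) (Icc t₀ T) t := by
  classical
  set D := Icc t₀ T ×ˢ closedBall x₀ R
  have hDc : IsCompact D := isCompact_Icc.prod (isCompact_closedBall x₀ R)
  have hM0 : 0 ≤ M :=
    (norm_nonneg _).trans (hM t₀ (left_mem_Icc.2 hT) x₀ (mem_closedBall_self hR))
  set o : Icc t₀ T := ⟨t₀, left_mem_Icc.2 hT⟩
  set K : Set (Icc t₀ T →ᵇ E) := {x | x o = x₀ ∧ ∀ s t, dist (x s) (x t) ≤ M * dist s t}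
  have hball : ∀ x ∈ K, ∀ t, x t ∈ closedBall x₀ R := fun x hx t => by
    rw [mem_closedBall, ← hx.1]
    refine (hx.2 t o).trans ((mul_le_mul_of_nonneg_left ?_ hM0).trans hMR)
    rw [Subtype.dist_eq, Real.dist_eq, abs_of_nonneg (sub_nonneg.2 t.2.1)]
    exact sub_le_sub_right t.2.2 t₀
  have hKclosed : IsClosed K := by
    have e : K = {x | x o = x₀} ∩ ⋂ s, ⋂ t, {x | dist (x s) (x t) ≤ M * dist s t} := by
      ext x
      simp only [K, mem_ofPred_eq, mem_inter_iff, mem_iInter]
    rw [e]
    have hev := fun s : Icc t₀ T =>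
      (BoundedContinuousFunction.evalCLM (α := Icc t₀ T) (β := E) ℝ s).continuous
    exact (isClosed_eq (hev o) continuous_const).inter (isClosed_iInter fun s =>
      isClosed_iInter fun t => isClosed_le ((hev s).dist (hev t)) continuous_const)
  have hKc : IsCompact K := by
    refine BoundedContinuousFunction.arzela_ascoli₂ _ (isCompact_closedBall x₀ R) K hKclosed
      (fun x t hx => hball x hx t) (UniformEquicontinuous.equicontinuous ?_)
    exact LipschitzWith.uniformEquicontinuous _ M.toNNReal fun x =>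
      LipschitzWith.of_dist_le_mul fun s t => by
        rw [Real.coe_toNNReal M hM0]
        exact x.2.2 s t
  have hKconv : Convex ℝ K := by
    intro x hx y hy a b ha hb hab
    refine ⟨?_, fun s t => ?_⟩
    · show a • x o + b • y o = x₀
      rw [hx.1, hy.1, ← add_smul, hab, one_smul]
    · show dist (a • x s + b • y s) (a • x t + b • y t) ≤ _
      refine (dist_add_add_le _ _ _ _).trans ?_
      rw [dist_smul₀, dist_smul₀, Real.norm_of_nonneg ha, Real.norm_of_nonneg hb]
      refine (add_le_add (mul_le_mul_of_nonneg_left (hx.2 s t) ha)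
        (mul_le_mul_of_nonneg_left (hy.2 s t) hb)).trans_eq ?_
      rw [← add_mul, hab, one_mul]
  have hKne : K.Nonempty := ⟨BoundedContinuousFunction.const _ x₀, rfl, fun s t => by
    simp [mul_nonneg hM0 dist_nonneg]⟩
  -- the field along a path
  set p : ℝ → Icc t₀ T := projIcc t₀ T hT
  set field : (Icc t₀ T →ᵇ E) → ℝ → E := fun x s => f (p s) (x (p s))
  have hfield : ∀ x ∈ K, Continuous (field x) := fun x hx => hf.comp_continuous
    (f := fun s => ((p s : ℝ), x (p s)))
    ((continuous_subtype_val.comp continuous_projIcc).prodMk (x.continuous.comp continuous_projIcc))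
    fun s => ⟨(p s).2, hball x hx _⟩
  have hnorm : ∀ x ∈ K, ∀ s, ‖field x s‖ ≤ M := fun x hx s => hM _ (p s).2 _ (hball x hx _)
  set Φ : (Icc t₀ T →ᵇ E) → Icc t₀ T →ᵇ E := fun x =>
    if h : x ∈ K then BoundedContinuousFunction.mkOfCompact
      ⟨fun t => x₀ + ∫ s in t₀..(t : ℝ), field x s, continuous_const.add
        ((continuous_primitive (fun a b => (hfield x h).intervalIntegrable a b) t₀).comp
          continuous_subtype_val)⟩
    else x
  have hΦ : ∀ x ∈ K, ∀ t, Φ x t = x₀ + ∫ s in t₀..(t : ℝ), field x s := fun x hx t => by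
    simp [Φ, hx]
  have hself : MapsTo Φ K K := fun x hx => by
    refine ⟨by rw [hΦ x hx]; simp [o], fun s t => ?_⟩
    rw [hΦ x hx, hΦ x hx, dist_add_left, dist_eq_norm,
      integral_interval_sub_left ((hfield x hx).intervalIntegrable _ _)
        ((hfield x hx).intervalIntegrable _ _), Subtype.dist_eq, Real.dist_eq]
    exact norm_integral_le_of_norm_le_const fun r _ => hnorm x hx r
  have hcont : ContinuousOn Φ K := by
    refine Metric.continuousOn_iff.2 fun x hx ε hε => ?_
    have hT' : 0 < T - t₀ + 1 := by linarith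
    obtain ⟨δ, hδ, hu⟩ := Metric.uniformContinuousOn_iff_le.1
      (hDc.uniformContinuousOn_of_continuous hf) (ε / 2 / (T - t₀ + 1)) (by positivity)
    refine ⟨δ, hδ, fun y hy hyx => lt_of_le_of_lt ?_ (half_lt_self hε)⟩
    refine (BoundedContinuousFunction.dist_le (by positivity)).2 fun t => ?_
    rw [hΦ y hy, hΦ x hx, dist_add_left, dist_eq_norm,
      ← integral_sub ((hfield y hy).intervalIntegrable _ _) ((hfield x hx).intervalIntegrable _ _)]
    refine (norm_integral_le_of_norm_le_const (C := ε / 2 / (T - t₀ + 1)) fun r _ => ?_).trans ?_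
    · rw [← dist_eq_norm]
      refine hu ((p r : ℝ), y (p r)) ⟨(p r).2, hball y hy _⟩ ((p r : ℝ), x (p r))
        ⟨(p r).2, hball x hx _⟩ ?_
      rw [Prod.dist_eq, dist_self, max_eq_right dist_nonneg]
      exact (BoundedContinuousFunction.dist_coe_le_dist (p r)).trans hyx.le
    · rw [abs_of_nonneg (sub_nonneg.2 t.2.1), div_mul_eq_mul_div, div_le_iff₀ hT']
      exact mul_le_mul_of_nonneg_left (by linarith [t.2.2]) (by positivity)
  obtain ⟨x, hx, hfix⟩ := FA.HairyBall.exists_fixed hKc hKconv hKne hcont hself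
  have hxt : ∀ t (ht : t ∈ Icc t₀ T), x ⟨t, ht⟩ = x₀ + ∫ s in t₀..t, field x s := fun t ht => by
    conv_lhs => rw [← hfix, hΦ x hx]
  refine ⟨fun t => x₀ + ∫ s in t₀..t, field x s, by simp, fun t ht => ?_, fun t ht => ?_⟩
  · show x₀ + ∫ s in t₀..t, field x s ∈ closedBall x₀ R
    rw [← hxt t ht]
    exact hball x hx _
  · have hd : HasDerivAt (fun t => x₀ + ∫ s in t₀..t, field x s) (field x t) t :=
      (integral_hasDerivAt_right ((hfield x hx).intervalIntegrable _ _)
        ((hfield x hx).stronglyMeasurableAtFilter _ _) (hfield x hx).continuousAt).const_add x₀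
    have e : field x t = f t (x₀ + ∫ s in t₀..t, field x s) := by
      rw [← hxt t ht]
      simp only [field, p]
      rw [projIcc_of_mem hT ht]
    exact e ▸ hd.hasDerivWithinAt

omit [NormedAddCommGroup E] [NormedSpace ℝ E] [FiniteDimensional ℝ E] in
/-- Solutions need not be unique. -/
theorem sqrt_nonunique : ∃ x y : ℝ → ℝ, x 0 = 0 ∧ y 0 = 0 ∧ x 1 ≠ y 1 ∧
    (∀ t ∈ Icc (0 : ℝ) 1, HasDerivWithinAt x √|x t| (Icc 0 1) t) ∧
    ∀ t ∈ Icc (0 : ℝ) 1, HasDerivWithinAt y √|y t| (Icc 0 1) t := by
  refine ⟨fun _ => 0, fun t => t ^ 2 / 4, rfl, by simp, by norm_num, fun t _ => ?_,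
    fun t ht => ?_⟩
  · simpa using hasDerivWithinAt_const t (Icc (0 : ℝ) 1) (0 : ℝ)
  · have e : √|t ^ 2 / 4| = t / 2 := by
      rw [show t ^ 2 / 4 = (t / 2) ^ 2 by ring, abs_pow, sq_abs,
        Real.sqrt_sq (by linarith [ht.1])]
    rw [e]
    refine (((hasDerivAt_pow 2 t).div_const 4).congr_deriv ?_).hasDerivWithinAt
    norm_num
    ring

end FA.Kakutani
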